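import Fermat.Agent.TWNew.Core
import Fermat.Agent.Ihara.NewSub
import Fermat.Agent.TWMod.ParEis
import Fermat.Agent.TWMod.Spec

set_option autoImplicit false

/-!
# Eigenvectors in `Hom(Γ₀(K), ℂ)` and newforms
-/

noncomputable section

namespace Fermat.Agent.TWNew

open UpperHalfPlane ModularForm CongruenceSubgroup Matrix.SpecialLinearGroup
open Fermat.Agent.IntStr ModularFormClass CuspForm Fermat.Agent.Eigenform Fermat.Agent.Petersson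
  Fermat.Agent.Newform Fermat.Agent.Top Fermat.Agent.Ihara Fermat.Agent.TWMod
  Fermat.Agent.Period
open scoped MatrixGroups Manifold Topology

variable {q m K : ℕ}

theorem cnj_smul {G : Type*} [AddMonoid G] (c : ℂ) (φ : G →+ ℂ) :
    cnj (c • φ) = (starRingEnd ℂ c) • cnj φ := by
  ext x; exact map_mul (starRingEnd ℂ) _ _

theorem cnj_zero {G : Type*} [AddMonoid G] : cnj (0 : G →+ ℂ) = 0 := by
  ext x; exact map_zero (starRingEnd ℂ)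

/-- A non-Eisenstein eigenvector is parabolic. -/
theorem isParabolic_of_eig (hK : 0 < K) {S : Finset ℕ} {a : ℕ → ℂ} (hNE : NonEis S a)
    {F : Additive (Gamma0 K) →+ ℂ}
    (hF : ∀ (ℓ : ℕ) (hℓ : ℓ.Prime), ℓ ∉ S → hop K ⟨ℓ, hℓ⟩ F = a ℓ • F) :
    ModularCurve.Period.IsParabolicHom (Gamma0 K) F := by
  obtain ⟨ℓ, hℓ, hℓS, hℓK, hne⟩ := hNE K hK
  have h1 := isParabolicHom_hop_sub hℓ hℓK F
  rw [hF ℓ hℓ hℓS] at h1
  intro γ hγ
  have h2 := h1 γ hγ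
  have h3 : a ℓ * F (Additive.ofMul γ) - ((1 + ℓ : ℕ) : ℂ) * F (Additive.ofMul γ) = 0 := by
    rw [← h2]
    change _ = a ℓ * F (Additive.ofMul γ) - (1 + ℓ) • F (Additive.ofMul γ)
    rw [nsmul_eq_mul]
  have h4 : (a ℓ - (1 + ℓ)) * F (Additive.ofMul γ) = 0 := by
    push_cast at h3
    linear_combination h3
  exact (mul_eq_zero.mp h4).resolve_left (sub_ne_zero.mpr hne)

/-- The cusp forms attached to a non-Eisenstein eigenvector. -/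
theorem exists_forms_of_eig [NeZero K] {S : Finset ℕ}
    (hS : ∀ r : ℕ, r.Prime → r ∣ K → r ∈ S) {a : ℕ → ℂ} (hNE : NonEis S a)
    {F : Additive (Gamma0 K) →+ ℂ}
    (hF : ∀ (ℓ : ℕ) (hℓ : ℓ.Prime), ℓ ∉ S → hop K ⟨ℓ, hℓ⟩ F = a ℓ • F) :
    ∃ f₁ f₂ : CuspForm (Gamma0 K) 2, F = periodLin K f₁ + cnj (periodLin K f₂) ∧
      (∀ ℓ : Nat.Primes, (ℓ : ℕ) ∉ S → hOp K ℓ f₁ = a ℓ • f₁) ∧
      (∀ ℓ : Nat.Primes, (ℓ : ℕ) ∉ S → hOp K ℓ f₂ = a ℓ • f₂) := by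
  obtain ⟨f₁, f₂, hf⟩ := exists_periods
    (isParabolic_of_eig (Nat.pos_of_ne_zero (NeZero.ne K)) hNE hF)
  have key : ∀ ℓ : Nat.Primes, (ℓ : ℕ) ∉ S → hOp K ℓ f₁ - a ℓ • f₁ = 0 ∧
      hOp K ℓ f₂ - (starRingEnd ℂ (a ℓ)) • f₂ = 0 := by
    intro ℓ hℓ
    apply eq_zero_of_periods
    have h1 := hF ℓ ℓ.2 hℓ
    change hop K ℓ F = a ℓ • F at h1
    rw [hf, map_add, hop_cnj, ← periodLin_hOp, ← periodLin_hOp, smul_add] at h1
    have e1 : periodLin K (hOp K ℓ f₁ - a ℓ • f₁) =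
        periodLin K (hOp K ℓ f₁) - a ℓ • periodLin K f₁ := by
      rw [map_sub, map_smul]
    have e2 : cnj (periodLin K (hOp K ℓ f₂ - (starRingEnd ℂ (a ℓ)) • f₂)) =
        cnj (periodLin K (hOp K ℓ f₂)) - a ℓ • cnj (periodLin K f₂) := by
      rw [map_sub, map_smul, sub_eq_add_neg, cnj_add, sub_eq_add_neg]
      congr 1
      rw [← neg_one_smul ℂ, cnj_smul, cnj_smul, Complex.conj_conj, map_neg, map_one,
        neg_one_smul]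
    rw [e1, e2]
    have h2 : periodLin K (hOp K ℓ f₁) - a ℓ • periodLin K f₁ +
        (cnj (periodLin K (hOp K ℓ f₂)) - a ℓ • cnj (periodLin K f₂)) =
        (periodLin K (hOp K ℓ f₁) + cnj (periodLin K (hOp K ℓ f₂))) -
          (a ℓ • periodLin K f₁ + a ℓ • cnj (periodLin K f₂)) := by abel
    rw [h2, h1, sub_self]
  refine ⟨f₁, f₂, hf, fun ℓ hℓ => sub_eq_zero.mp (key ℓ hℓ).1, fun ℓ hℓ => ?_⟩
  have h1 := sub_eq_zero.mp (key ℓ hℓ).2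
  by_cases h0 : f₂ = 0
  · rw [h0, map_zero, smul_zero]
  · have hℓK : ¬ (ℓ : ℕ) ∣ K := fun h => hℓ (hS ℓ ℓ.2 h)
    have h2 := (isSym_hOp hℓK).conj_eq h0 h1
    rw [Complex.conj_conj] at h2
    rw [h1, ← h2]

/-- A non-Eisenstein eigensystem occurring in `Hom(Γ₀(K), ℂ)` is that of a newform. -/
theorem exists_newform_of_eig [NeZero K] {S : Finset ℕ}
    (hS : ∀ r : ℕ, r.Prime → r ∣ K → r ∈ S) {a : ℕ → ℂ} (hNE : NonEis S a)
    {F : Additive (Gamma0 K) →+ ℂ} (hF0 : F ≠ 0)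
    (hF : ∀ (ℓ : ℕ) (hℓ : ℓ.Prime), ℓ ∉ S → hop K ⟨ℓ, hℓ⟩ F = a ℓ • F) :
    ∃ (M : ℕ) (_ : NeZero M) (g : CuspForm (Gamma0 M) 2), M ∣ K ∧ g.IsNewform ∧
      ∀ ℓ : ℕ, ℓ.Prime → ℓ ∉ S → qCoeff g ℓ = a ℓ := by
  obtain ⟨f₁, f₂, hf, h1, h2⟩ := exists_forms_of_eig hS hNE hF
  obtain ⟨f, hf0, hfe⟩ : ∃ f : CuspForm (Gamma0 K) 2, f ≠ 0 ∧
      ∀ ℓ : Nat.Primes, (ℓ : ℕ) ∉ S → hOp K ℓ f = a ℓ • f := by
    by_cases h0 : f₁ = 0
    · refine ⟨f₂, ?_, h2⟩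
      rintro rfl
      apply hF0
      rw [hf, h0, map_zero, cnj_zero, add_zero]
    · exact ⟨f₁, h0, h1⟩
  obtain ⟨f', hf', hf'a⟩ := exists_eigenform {ℓ | (ℓ : ℕ) ∉ S} (fun ℓ => a ℓ) hf0
    (fun ℓ hℓ => hfe ℓ hℓ)
  obtain ⟨M, hMK, g, hg, hgf⟩ := exists_newform hf'
  refine ⟨M, ⟨fun h => ?_⟩, g, hMK, hg, fun ℓ hℓ hℓS => ?_⟩
  · rw [h, zero_dvd_iff] at hMK
    exact NeZero.ne K hMK
  · have hℓK : ¬ ℓ ∣ K := fun h => hℓS (hS ℓ hℓ h)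
    rw [hgf ℓ hℓ hℓK]
    exact hf'a ⟨ℓ, hℓ⟩ hℓS

/-- The level of the newform divides the level of any eigenform. -/
theorem level_dvd_of_eig [NeZero K] {S : Finset ℕ} {a : ℕ → ℂ} {f : CuspForm (Gamma0 K) 2}
    (hf0 : f ≠ 0) (hf : ∀ ℓ : Nat.Primes, (ℓ : ℕ) ∉ S → hOp K ℓ f = a ℓ • f) {M : ℕ} [NeZero M]
    {g : CuspForm (Gamma0 M) 2} (hg : g.IsNewform)
    (hga : ∀ ℓ : ℕ, ℓ.Prime → ℓ ∉ S → qCoeff g ℓ = a ℓ) : M ∣ K := by
  obtain ⟨f', hf', hf'a⟩ := exists_eigenform {ℓ | (ℓ : ℕ) ∉ S} (fun ℓ => a ℓ) hf0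
    (fun ℓ hℓ => hf ℓ hℓ)
  refine newform_level_dvd hg hf' S fun ℓ hℓ hℓS => ?_
  rw [hga ℓ hℓ hℓS]
  exact hf'a ⟨ℓ, hℓ⟩ hℓS

/-- Operators of periods and forms: vanishing. -/
theorem eq_zero_of_op [NeZero K] {f₁ f₂ : CuspForm (Gamma0 K) 2}
    (U : (Additive (Gamma0 K) →+ ℂ) →+ (Additive (Gamma0 K) →+ ℂ))
    (T : CuspForm (Gamma0 K) 2 → CuspForm (Gamma0 K) 2)
    (hUT : ∀ f, U (periodLin K f) = periodLin K (T f)) (hUc : ∀ φ, U (cnj φ) = cnj (U φ))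
    (h : U (periodLin K f₁ + cnj (periodLin K f₂)) = 0) : T f₁ = 0 ∧ T f₂ = 0 := by
  apply eq_zero_of_periods
  rw [← hUT, ← hUT, ← hUc, ← map_add, h]

theorem heckeU_of_hOp [NeZero K] (hq : q.Prime) (hqK : q ∣ K) (f : CuspForm (Gamma0 K) 2) :
    (hOp K (pr hq) f : ℍ → ℂ) = heckeU 2 q f := by
  rw [hOp_of_dvd (q := pr hq) hqK]
  rfl

/-- **Criterion for `q² ∣ M`.** -/
theorem sq_dvd_of_new (hq : q.Prime) (hqm : ¬ q ∣ m) [NeZero (q ^ 2 * m)] {S : Finset ℕ}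
    (hS : ∀ r : ℕ, r.Prime → r ∣ q ^ 2 * m → r ∈ S) {a : ℕ → ℂ} (hNE : NonEis S a)
    {F : Additive (Gamma0 (q ^ 2 * m)) →+ ℂ} (hF0 : F ≠ 0)
    (hF : ∀ (ℓ : ℕ) (hℓ : ℓ.Prime), ℓ ∉ S → hop (q ^ 2 * m) ⟨ℓ, hℓ⟩ F = a ℓ • F)
    (al : ALD m (q ^ 2)) (hU : hop (q ^ 2 * m) ⟨q, hq⟩ F = 0) {ε : ℂ} (hε : ε ^ 2 = 1)
    (hW : wop al (pow_ne_zero 2 hq.ne_zero) F = ε • F) {M : ℕ} [NeZero M]
    {g : CuspForm (Gamma0 M) 2} (hg : g.IsNewform)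
    (hga : ∀ ℓ : ℕ, ℓ.Prime → ℓ ∉ S → qCoeff g ℓ = a ℓ) : q ^ 2 ∣ M := by
  by_contra hcon
  have hq0 := hq.ne_zero
  obtain ⟨f₁, f₂, hf, h1, h2⟩ := exists_forms_of_eig hS hNE hF
  have hεc : starRingEnd ℂ ε = ε := by
    rcases sq_eq_one_iff_of_ne_zero' hε with rfl | rfl <;> simp
  have hεq : ε ≠ (q : ℂ)⁻¹ := by
    rintro rfl
    have h3 : (q : ℂ) ^ 2 = 1 := by
      rw [inv_pow] at hε
      exact inv_eq_one.mp hε
    have h4 : q ^ 2 = 1 := by exact_mod_cast h3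
    have := hq.two_le
    nlinarith
  have hqK : q ∣ q ^ 2 * m := (dvd_pow_self q two_ne_zero).mul_right m
  -- `U_q`
  have hU' : hOp (q ^ 2 * m) (pr hq) f₁ = 0 ∧ hOp (q ^ 2 * m) (pr hq) f₂ = 0 := by
    refine eq_zero_of_op (hop (q ^ 2 * m) (pr hq)) (hOp (q ^ 2 * m) (pr hq))
      (fun f => (periodLin_hOp _ _ f).symm) (fun φ => hop_cnj _ φ) ?_
    rw [← hf]
    exact hU
  -- `w`
  have hW' : wLin al (pow_ne_zero 2 hq0) f₁ - ε • f₁ = 0 ∧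
      wLin al (pow_ne_zero 2 hq0) f₂ - ε • f₂ = 0 := by
    apply eq_zero_of_periods
    rw [hf, wop_add] at hW
    have e1 : periodLin (q ^ 2 * m) (wLin al (pow_ne_zero 2 hq0) f₁ - ε • f₁) =
        wop al (pow_ne_zero 2 hq0) (periodLin _ f₁) - ε • periodLin _ f₁ := by
      rw [map_sub, map_smul, periodLin_wLin]
    have e2 : cnj (periodLin (q ^ 2 * m) (wLin al (pow_ne_zero 2 hq0) f₂ - ε • f₂)) =
        wop al (pow_ne_zero 2 hq0) (cnj (periodLin _ f₂)) - ε • cnj (periodLin _ f₂) := by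
      rw [map_sub, map_smul, periodLin_wLin, sub_eq_add_neg, cnj_add, sub_eq_add_neg]
      congr 1
      rw [← neg_one_smul ℂ, cnj_smul, cnj_smul, hεc, map_neg, map_one, neg_one_smul]
    rw [e1, e2]
    have h3 : ∀ A B C D : Additive (Gamma0 (q ^ 2 * m)) →+ ℂ, A - B + (C - D) = A + C - (B + D) := by
      intro A B C D; abel
    rw [h3, hW, smul_add, sub_self]
  have main : ∀ f : CuspForm (Gamma0 (q ^ 2 * m)) 2,
      (∀ ℓ : Nat.Primes, (ℓ : ℕ) ∉ S → hOp (q ^ 2 * m) ℓ f = a ℓ • f) →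
      hOp (q ^ 2 * m) (pr hq) f = 0 → wLin al (pow_ne_zero 2 hq0) f - ε • f = 0 → f = 0 := by
    intro f hfe hfU hfW
    by_contra hf0
    have hMK := level_dvd_of_eig hf0 hfe hg hga
    have hMq : M ∣ q * m := by
      rw [sq, mul_assoc] at hMK
      obtain ⟨k, hk⟩ := hMK
      by_cases hqk : q ∣ k
      · obtain ⟨k', rfl⟩ := hqk
        refine ⟨k', ?_⟩
        apply Nat.eq_of_mul_eq_mul_left hq.pos
        rw [hk]; ring
      · exfalso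
        apply hcon
        have h3 : q ^ 2 ∣ M * k := ⟨m, by rw [← hk]; ring⟩
        exact (Nat.Coprime.pow_left 2 ((hq.coprime_iff_not_dvd).mpr hqk)).dvd_of_dvd_mul_right h3
    obtain ⟨Ff, r, hFf, hr, hfs⟩ := exists_split hq (K := q ^ 2 * m) (L := q * m) (by ring) hg hMq S f
      (fun ℓ hℓ => by rw [hfe ℓ hℓ, hga ℓ ℓ.2 hℓ])
    apply hf0
    apply DFunLike.coe_injective
    refine eq_zero_of_sq hq hqm hFf hr hfs ?_ (isAL_alM al (pow_ne_zero 2 hq0)) hεq ?_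
    · rw [← heckeU_of_hOp hq hqK, hfU]; rfl
    · rw [← coe_wLin al (pow_ne_zero 2 hq0), sub_eq_zero.mp hfW]; rfl
  have e1 := main f₁ h1 hU'.1 hW'.1
  have e2 := main f₂ h2 hU'.2 hW'.2
  apply hF0
  rw [hf, e1, e2, map_zero, cnj_zero, add_zero]

/-- **Criterion for vanishing by traces.** -/
theorem hom_eq_zero_of_traces (hq : q.Prime) (hqm : ¬ q ∣ m) [NeZero m] [NeZero (q * m)]
    (al : ALD m q) {S : Finset ℕ}
    (hS : ∀ r : ℕ, r.Prime → r ∣ q * m → r ∈ S) {a : ℕ → ℂ} (hNE : NonEis S a)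
    {F : Additive (Gamma0 (q * m)) →+ ℂ}
    (hF : ∀ (ℓ : ℕ) (hℓ : ℓ.Prime), ℓ ∉ S → hop (q * m) ⟨ℓ, hℓ⟩ F = a ℓ • F)
    {M : ℕ} [NeZero M] {g : CuspForm (Gamma0 M) 2} (hg : g.IsNewform)
    (hga : ∀ ℓ : ℕ, ℓ.Prime → ℓ ∉ S → qCoeff g ℓ = a ℓ) (hqM : ¬ q ∣ M)
    (h1 : F + hop (q * m) ⟨q, hq⟩ (wop al hq.ne_zero F) = 0)
    (h2 : wop al hq.ne_zero F + hop (q * m) ⟨q, hq⟩ F = 0) : F = 0 := by
  have hq0 := hq.ne_zero
  have hqK : q ∣ q * m := dvd_mul_right q m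
  obtain ⟨f₁, f₂, hf, hf₁, hf₂⟩ := exists_forms_of_eig hS hNE hF
  have hT1 : f₁ + hOp (q * m) (pr hq) (wLin al hq0 f₁) = 0 ∧
      f₂ + hOp (q * m) (pr hq) (wLin al hq0 f₂) = 0 := by
    apply eq_zero_of_periods
    rw [map_add, map_add, periodLin_hOp, periodLin_wLin, periodLin_hOp, periodLin_wLin, cnj_add,
      ← hop_cnj]
    have e : periodLin (q * m) f₁ + hop (q * m) (pr hq) (wop al hq0 (periodLin (q * m) f₁)) +
        (cnj (periodLin (q * m) f₂) +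
          hop (q * m) (pr hq) (cnj (wop al hq0 (periodLin (q * m) f₂)))) =
        F + hop (q * m) ⟨q, hq⟩ (wop al hq0 F) := by
      have e1 : cnj (wop al hq0 (periodLin (q * m) f₂)) =
        wop al hq0 (cnj (periodLin (q * m) f₂)) := rfl
      rw [e1, hf, wop_add, map_add]
      change _ = _ + (hop (q * m) (pr hq) _ + hop (q * m) (pr hq) _)
      abel
    rw [e, h1]
  have hT2 : wLin al hq0 f₁ + hOp (q * m) (pr hq) f₁ = 0 ∧
      wLin al hq0 f₂ + hOp (q * m) (pr hq) f₂ = 0 := by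
    apply eq_zero_of_periods
    rw [map_add, map_add, periodLin_hOp, periodLin_wLin, periodLin_hOp, periodLin_wLin, cnj_add,
      ← hop_cnj]
    have e : wop al hq0 (periodLin (q * m) f₁) + hop (q * m) (pr hq) (periodLin (q * m) f₁) +
        (cnj (wop al hq0 (periodLin (q * m) f₂)) +
          hop (q * m) (pr hq) (cnj (periodLin (q * m) f₂))) =
        wop al hq0 F + hop (q * m) ⟨q, hq⟩ F := by
      have e1 : cnj (wop al hq0 (periodLin (q * m) f₂)) =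
        wop al hq0 (cnj (periodLin (q * m) f₂)) := rfl
      rw [e1, hf, wop_add, map_add]
      change _ = _ + (hop (q * m) (pr hq) _ + hop (q * m) (pr hq) _)
      abel
    rw [e, h2]
  have main : ∀ f : CuspForm (Gamma0 (q * m)) 2,
      (∀ ℓ : Nat.Primes, (ℓ : ℕ) ∉ S → hOp (q * m) ℓ f = a ℓ • f) →
      f + hOp (q * m) (pr hq) (wLin al hq0 f) = 0 →
      wLin al hq0 f + hOp (q * m) (pr hq) f = 0 → f = 0 := by
    intro f hfe k1 k2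
    by_contra hf0
    have hMK := level_dvd_of_eig hf0 hfe hg hga
    have hMm : M ∣ m := (Nat.Coprime.symm ((hq.coprime_iff_not_dvd).mpr hqM)).dvd_of_dvd_mul_left hMK
    obtain ⟨Ff, r, hFf, hr, hfs⟩ := exists_split hq (K := q * m) (L := m) rfl hg hMm S f
      (fun ℓ hℓ => by rw [hfe ℓ hℓ, hga ℓ ℓ.2 hℓ])
    apply hf0
    apply DFunLike.coe_injective
    refine eq_zero_of_traces hq hqm hFf hr hfs (isAL_alM al hq0) ?_ ?_
    · rw [← coe_wLin al hq0, ← heckeU_of_hOp hq hqK]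
      exact congrArg (fun X : CuspForm (Gamma0 (q * m)) 2 => (X : ℍ → ℂ)) k1
    · rw [← coe_wLin al hq0, ← heckeU_of_hOp hq hqK]
      exact congrArg (fun X : CuspForm (Gamma0 (q * m)) 2 => (X : ℍ → ℂ)) k2
  rw [hf, main f₁ hf₁ hT1.1 hT2.1, main f₂ hf₂ hT1.2 hT2.2, map_zero, cnj_zero, add_zero]

end Fermat.Agent.TWNew
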