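import Fermat.Agent.TWNew.Last

set_option autoImplicit false
set_option linter.unusedSectionVars false

/-!
# `SpecNew`: eigensystems in twisted cohomology come from newforms of level divisible by `q²`
-/

noncomputable section

namespace Fermat.Agent.TWNew

open CongruenceSubgroup Fermat.Agent.Top Fermat.Agent.TWMod Fermat.Agent.Twist Fermat.Agent.Ihara
  Matrix.SpecialLinearGroup
open scoped MatrixGroups

/-- Twisting at all the primes dividing `c`, except `q`. -/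
theorem exists_pre {q : ℕ} : ∀ (c N : ℕ) (χ : DirichletCharacter ℂ N),
    TwHyp N (q * c) χ → ∃ (N' : ℕ) (χ' : DirichletCharacter ℂ N'), N' = N * c ∧ TwHyp N' q χ' ∧
      ∃ tw : H1 (kap χ) ℂ →ₗ[ℂ] H1 (kap χ') ℂ, Function.Injective tw ∧
        ∀ (ℓ : ℕ) (hℓ : ℓ.Prime), ¬ ℓ ∣ N → ∀ x, tw (hk χ ℂ hℓ x) = hk χ' ℂ hℓ (tw x) := by
  intro c
  induction c using Nat.strong_induction_on with
  | _ c ih =>
    intro N χ h
    rcases Nat.lt_or_ge 1 c with hc | hc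
    · obtain ⟨r, hr, c', hc'⟩ := Nat.exists_prime_and_dvd hc.ne'
      subst hc'
      have h' : TwHyp N (r * (q * c')) χ := by
        rw [show r * (q * c') = q * (r * c') by ring]; exact h
      obtain ⟨S⟩ := exists_step hr h'
      obtain ⟨tw, htw1, htw2⟩ := S.exists_tw hr h.pos
      have hc'0 : 0 < c' := by
        rcases Nat.eq_zero_or_pos c' with rfl | h
        · omega
        · exact h
      obtain ⟨N', χ', hN', hχ', tw', htw1', htw2'⟩ := ih c' (by nlinarith [hr.two_le]) (N * r) S.χ'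
        S.hyp
      refine ⟨N', χ', by rw [hN']; ring, hχ', tw'.comp tw, htw1'.comp htw1,
        fun ℓ hℓ hℓN x => ?_⟩
      rw [LinearMap.comp_apply, htw2 ℓ hℓ hℓN, LinearMap.comp_apply]
      refine htw2' ℓ hℓ (fun hd => hℓN ?_) _
      rcases hℓ.dvd_mul.mp hd with h1 | h1
      · exact h1
      · exact h1.trans ⟨S.n, S.hn⟩
    · have hqc0 : 0 < q * c := Nat.pos_of_dvd_of_pos h.dvd h.pos
      have hc0 : 0 < c := Nat.pos_of_mul_pos_left hqc0
      have hc1 : c = 1 := by omega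
      subst hc1
      rw [mul_one] at h
      exact ⟨N, χ, by rw [mul_one], h, LinearMap.id, Function.injective_id, fun _ _ _ _ => rfl⟩

theorem transport {K K' : ℕ} (e : K = K') (P : ∀ K : ℕ, (Additive (Gamma0 K) →+ ℂ) → Prop)
    {F : Additive (Gamma0 K) →+ ℂ} (h : P K F) : ∃ F' : Additive (Gamma0 K') →+ ℂ, P K' F' := by
  subst e; exact ⟨F, h⟩

theorem w_eq_wm {q n : ℕ} (al : ALD n (q ^ 2)) : al.w = wm q n al.x al.y al.z al.t := by
  rw [ALD.w, wm]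
  push_cast
  rfl

/-- **(A2c)** -/
theorem specNew : SpecNew := by
  intro N c χ h S hS a hNE x hx0 hx
  have hN0 := h.pos
  have hc0 : 0 < c := Nat.pos_of_dvd_of_pos h.dvd h.pos
  have hNc : 0 < N * c := Nat.mul_pos hN0 hc0
  have : NeZero (N * c) := ⟨hNc.ne'⟩
  obtain ⟨tw, htw, htw'⟩ := specTwist N c χ h
  obtain ⟨M, hM, g, hMN, hg, hga⟩ := exists_newform_of_eig (K := N * c) (S := S) (a := a)
    (F := tw x) (fun r hr hrN => by
      rcases hr.dvd_mul.mp hrN with h1 | h1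
      · exact hS r hr h1
      · exact hS r hr (h1.trans h.dvd)) hNE
    (fun h0 => hx0 (htw (by rw [h0, map_zero])))
    (fun ℓ hℓ hℓS => by
      rw [← htw' ℓ hℓ (fun hd => hℓS (hS ℓ hℓ hd)), hx ℓ hℓ hℓS, map_smul])
  refine ⟨M, hM, g, hMN, hg, hga, ?_⟩
  intro q hq hqc
  have : Fact q.Prime := ⟨hq⟩
  obtain ⟨c', rfl⟩ := hqc
  obtain ⟨N', χ', hN', hχ', tw', htw1, htw2⟩ := exists_pre c' N χ h
  have hc'0 : 0 < c' := Nat.pos_of_mul_pos_left hc0
  have hN'0 : 0 < N' := hχ'.pos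
  have : NeZero N' := ⟨hN'0.ne'⟩
  obtain ⟨T⟩ := exists_step (c' := 1) hq (χ := χ') (by rw [mul_one]; exact hχ')
  have hqN' : q ∣ N' := ⟨T.n, T.hn⟩
  have hT1 : T.χ' = 1 := (DirichletCharacter.factorsThrough_one_iff T.χ').mp T.hyp.fac
  have hk1 := kap_eq_one_of_one hT1
  have hinj : Function.Injective (tw1 ℂ hqN' T.rel) :=
    tw1_injective hqN' T.hn T.cop T.rel T.ne T.hd T.hdn T.hχ
  -- the primes
  have hSN' : ∀ r : ℕ, r.Prime → r ∣ N' → r ∈ S := by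
    intro r hr hrN
    rw [hN'] at hrN
    rcases hr.dvd_mul.mp hrN with h1 | h1
    · exact hS r hr h1
    · exact hS r hr (h1.trans ((dvd_mul_left c' q).trans h.dvd))
  have hSK : ∀ r : ℕ, r.Prime → r ∣ N' * q → r ∈ S := by
    intro r hr hrN
    rcases hr.dvd_mul.mp hrN with h1 | h1
    · exact hSN' r hr h1
    · exact hSN' r hr (h1.trans hqN')
  -- the cocycle
  obtain ⟨f, hf⟩ := cls_surjective _ _ (tw' x)
  set F := homOfH hk1 (tw1 ℂ hqN' T.rel (tw' x)) with hF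
  have hFf : F = homOfZ hk1 (twZ ℂ hqN' T.rel f) := by
    rw [hF, ← hf, tw1_cls, homOfH_cls]
  have hK : N' * q = q ^ 2 * T.n := by
    calc N' * q = (q * T.n) * q := congrArg (· * q) T.hn
      _ = q ^ 2 * T.n := by ring
  have hn0 : T.n ≠ 0 := by
    intro h0
    have := T.hn
    rw [h0, mul_zero] at this
    omega
  have hqn : ¬ q ∣ T.n := (Nat.Prime.coprime_iff_not_dvd hq).mp T.cop
  obtain ⟨F', hF'0, hF'e, hF'U, hF'W⟩ := transport hK
    (fun K F => F ≠ 0 ∧ (∀ (ℓ : ℕ) (hℓ : ℓ.Prime), ℓ ∉ S → hop K ⟨ℓ, hℓ⟩ F = a ℓ • F) ∧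
      hop K ⟨q, hq⟩ F = 0 ∧ ∀ x y z t : ℤ, (q : ℤ) ^ 2 * x * t - T.n * y * z = 1 →
        ∀ γ γ' : Gamma0 K, wm q T.n x y z t * ((γ : SL(2, ℤ)) : Matrix (Fin 2) (Fin 2) ℤ) =
          ((γ' : SL(2, ℤ)) : Matrix (Fin 2) (Fin 2) ℤ) * wm q T.n x y z t →
          F (Additive.ofMul γ') = T.ψ (-1) * F (Additive.ofMul γ)) (F := F) (by
    refine ⟨?_, ?_, ?_, ?_⟩
    · intro h0
      apply hx0
      apply htw1
      apply hinj
      apply homOfH_injective hk1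
      rw [← hF, h0, map_zero, map_zero, map_zero]
    · intro ℓ hℓ hℓS
      have hℓN : ¬ ℓ ∣ N := fun hd => hℓS (hS ℓ hℓ hd)
      have hℓN' : ¬ ℓ ∣ N' := fun hd => hℓS (hSN' ℓ hℓ hd)
      have hℓK : ¬ ℓ ∣ N' * q := fun hd => hℓS (hSK ℓ hℓ hd)
      rw [hF, ← homOfH_hk hk1 hℓ (hw_eq_one_of_one hT1 hℓ hℓK), ← tw1_hk ℂ hqN' T.rel hℓ hℓN',
        ← htw2 ℓ hℓ hℓN, hx ℓ hℓ hℓS, map_smul, map_smul, map_smul]
    · refine AddMonoidHom.ext fun γ' => ?_
      obtain ⟨γ, rfl⟩ : ∃ γ, Additive.ofMul γ = γ' := ⟨γ'.toMul, rfl⟩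
      rw [hFf]
      exact sum_twZ_eq_zero hqN' T.rel hk1 T.ne f γ
    · intro x y z t hd γ γ' hw
      rw [hFf]
      exact twZ_wm hqN' T.rel hT1 T.hn hd f hw)
  have : NeZero (q ^ 2 * T.n) := ⟨mul_ne_zero (pow_ne_zero 2 hq.ne_zero) hn0⟩
  obtain ⟨al⟩ := exists_ALD (q := q ^ 2) (N := T.n) (T.cop.pow_left 2)
  refine sq_dvd_of_new hq hqn (S := S) (a := a) (F := F') (fun r hr hrK => hSK r hr (hK ▸ hrK)) hNE
    hF'0 hF'e al hF'U (ε := T.ψ (-1)) ?_ ?_ hg hga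
  · rw [← map_pow, neg_one_sq, map_one]
  · refine AddMonoidHom.ext fun γ' => ?_
    obtain ⟨γ, rfl⟩ : ∃ γ, Additive.ofMul γ = γ' := ⟨γ'.toMul, rfl⟩
    have h1 := cj_spec al (pow_ne_zero 2 hq.ne_zero) γ
    rw [w_eq_wm] at h1
    refine hF'W al.x al.y al.z al.t ?_ γ _ h1
    have h2 := al.h
    push_cast at h2
    exact h2

end Fermat.Agent.TWNew
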