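import Fermat.Agent.Newform.Eigenspaces
import Fermat.Agent.Petersson.Bound

set_option autoImplicit false

/-!
# Vanishing criteria for cusp forms killed by the operators at one prime `q`

* `eq_zero_of_sq`: a form `f` of level `q² m`, with `U_q f = 0`, `f ∣ w_{q²} = ε f`, which lies in
  `S₂(q m) + V_q S₂(q m)`, vanishes;
* `eq_zero_of_traces`: a form `f` of level `q m` in `S₂(m) + V_q S₂(m)` with vanishing traces to level
  `m` vanishes.
-/

noncomputable section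

namespace Fermat.Agent.TWNew

open UpperHalfPlane ModularForm CongruenceSubgroup Matrix.SpecialLinearGroup
open Fermat.Agent.IntStr ModularFormClass CuspForm Fermat.Agent.Eigenform Fermat.Agent.Petersson
  Fermat.Agent.Newform
open scoped MatrixGroups Manifold Topology

variable {q m : ℕ}

theorem heckeU_add2 (q : ℕ) (f g : ℍ → ℂ) :
    heckeU 2 q (f + g) = heckeU 2 q f + heckeU 2 q g := by
  rw [heckeU_eq_sum, heckeU_eq_sum, heckeU_eq_sum, ← Finset.sum_add_distrib]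
  exact Finset.sum_congr rfl fun j _ => SlashAction.add_slash _ _ _ _

theorem sigma_heckeMatrix {q : ℕ} (hq : q ≠ 0) (j : ℕ) :
    UpperHalfPlane.σ (heckeMatrix q j) = .refl ℝ ℂ := by
  refine sigma_of_matrix (a := 1) (b := j) (c := 0) (d := q) (by rw [val_heckeMatrix hq]) ?_
  have : (0 : ℝ) < q := by exact_mod_cast Nat.pos_of_ne_zero hq
  simpa using this

theorem heckeU_smul2 {q : ℕ} (hq : q ≠ 0) (c : ℂ) (f : ℍ → ℂ) :
    heckeU 2 q (c • f) = c • heckeU 2 q f := by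
  rw [heckeU_eq_sum, heckeU_eq_sum, Finset.smul_sum]
  exact Finset.sum_congr rfl fun j _ => slash_smul_of_sigma (sigma_heckeMatrix hq _) c f

theorem heckeT_eq_add {q : ℕ} (hq : q ≠ 0) (f : ℍ → ℂ) :
    heckeT 2 q f = (q : ℂ) • V q f + heckeU 2 q f := by
  rw [heckeT_eq_sum, heckeU_eq_sum, Fintype.sum_option]
  congr 1
  change f ∣[(2 : ℤ)] heckeDiagMatrix q = _
  rw [slash_diag hq]

theorem mem_G0_of_isAL_one {m : ℕ} {w : GL (Fin 2) ℝ} {x y z t : ℤ} {Q : ℕ} (hQ : Q = 1)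
    (hw : IsAL m Q w x y z t) : w ∈ G0 m := by
  subst hQ
  obtain ⟨h1, h2⟩ := hw
  refine mem_G0.mpr ⟨x, y, m * z, t, ?_, dvd_mul_right _ _, ?_⟩
  · rw [← h1]; push_cast; ring
  · rw [h2]; push_cast; simp

/-- `F ∣ w_q = q V_q F` for `F` of level `m` prime to `q`. -/
theorem slash_w_of_level {F : ℍ → ℂ} (hq : q ≠ 0) {w : GL (Fin 2) ℝ} {x y z t : ℤ}
    (hw : IsAL m q w x y z t) (hF : IsCF (Gamma0 m) 2 F) : F ∣[(2 : ℤ)] w = (q : ℂ) • V q F := by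
  have hw' : IsAL m (q ^ (0 + 1)) w x y z t := by simpa using hw
  obtain ⟨w₃, hw₃, h3⟩ := slash_AL_lower (F := F) hq hw'
  rw [h3]
  congr 2
  exact G0_le_stab hF (mem_G0_of_isAL_one (pow_zero q) hw₃)

/-- `(V_q r) ∣ w_q = q⁻¹ r` for `r` of level `m` prime to `q`. -/
theorem V_slash_w_of_level {r : ℍ → ℂ} (hq : q ≠ 0) {w : GL (Fin 2) ℝ} {x y z t : ℤ}
    (hw : IsAL m q w x y z t) (hr : IsCF (Gamma0 m) 2 r) :
    (V q r) ∣[(2 : ℤ)] w = (q : ℂ)⁻¹ • r := by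
  have hw' : IsAL m (q ^ (0 + 1)) w x y z t := by simpa using hw
  obtain ⟨w₃, hw₃, h3⟩ := V_slash_AL (r := r) hq hw'
  rw [h3]
  congr 1
  exact G0_le_stab hr (mem_G0_of_isAL_one (pow_zero q) hw₃)

/-- **Vanishing at level `q²`.** -/
theorem eq_zero_of_sq (hq : q.Prime) (hqm : ¬ q ∣ m) {f F r : ℍ → ℂ}
    (hF : IsCF (Gamma0 (q * m)) 2 F) (hr : IsCF (Gamma0 (q * m)) 2 r) (hf : f = F + V q r)
    (hU : heckeU 2 q f = 0) {w : GL (Fin 2) ℝ} {x y z t : ℤ} (hw : IsAL m (q ^ 2) w x y z t)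
    {ε : ℂ} (hε : ε ≠ (q : ℂ)⁻¹) (hfw : f ∣[(2 : ℤ)] w = ε • f) : f = 0 := by
  have hq0 := hq.ne_zero
  have hqC : (q : ℂ) ≠ 0 := by exact_mod_cast hq0
  -- `r = - U_q F`
  have hrU : r = -heckeU 2 q F := by
    have h1 := hU
    rw [hf, heckeU_add2, heckeU_V hq0 hr] at h1
    exact (neg_eq_of_add_eq_zero_right h1).symm
  have hw1 : IsAL m (q ^ (1 + 1)) w x y z t := hw
  obtain ⟨w₁, hw₁, hFw⟩ := slash_AL_lower (F := F) hq0 hw1
  obtain ⟨w₂, hw₂, hrw⟩ := V_slash_AL (r := r) hq0 hw1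
  have hw₁' : IsAL m q w₁ x y z (q * t) := by simpa using hw₁
  have hw₂' : IsAL m q w₂ (q * x) y z t := by simpa using hw₂
  have hFw1 : IsCF (Gamma0 (q * m)) 2 (F ∣[(2 : ℤ)] w₁) := hw₁'.isCF hq0 hF
  have hFw₂ := hw₂'.isCF hq0 hF
  have htr := trace_isCF hq hqm hw₂' hFw₂
  rw [hw₂'.sq hq0 hF] at htr
  set h := F ∣[(2 : ℤ)] w₂ + heckeU 2 q F with hh
  have hU' : heckeU 2 q F = h + (-1 : ℂ) • (F ∣[(2 : ℤ)] w₂) := by
    rw [hh, neg_one_smul]; abel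
  have hσ₂ := hw₂'.sigma hq0
  have hUw : r ∣[(2 : ℤ)] w₂ = F + (-(q : ℂ)) • V q h := by
    rw [hrU, SlashAction.neg_slash, hU', SlashAction.add_slash, slash_smul_of_sigma hσ₂,
      slash_w_of_level hq0 hw₂' htr, hw₂'.sq hq0 hF]
    rw [neg_one_smul, _root_.neg_smul]
    abel
  have hrel : ε • (F + V q r) = (q : ℂ) • V q (F ∣[(2 : ℤ)] w₁) +
      (q : ℂ)⁻¹ • (F + (-(q : ℂ)) • V q h) := by
    rw [← hUw, ← hFw, ← hrw, ← SlashAction.add_slash, ← hf, hfw]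
  have hd : ε - (q : ℂ)⁻¹ ≠ 0 := sub_ne_zero.mpr hε
  set u : ℍ → ℂ := (ε - (q : ℂ)⁻¹)⁻¹ • ((q : ℂ) • (F ∣[(2 : ℤ)] w₁) - h - ε • r) with hu
  have hFu : F = V q u := by
    have h1 : (ε - (q : ℂ)⁻¹) • F = V q ((q : ℂ) • (F ∣[(2 : ℤ)] w₁) - h - ε • r) := by
      rw [V_sub, V_sub, V_smul, V_smul]
      have h2 : (q : ℂ)⁻¹ • (F + (-(q : ℂ)) • V q h) = (q : ℂ)⁻¹ • F - V q h := by
        rw [smul_add, smul_smul, mul_neg, inv_mul_cancel₀ hqC, neg_one_smul, sub_eq_add_neg]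
      rw [h2, smul_add] at hrel
      rw [sub_smul]
      linear_combination (exp := 1) hrel
    rw [hu, V_smul, ← h1, smul_smul, inv_mul_cancel₀ hd, one_smul]
  have hhm : IsCF (Gamma0 (q * m)) 2 h := IsCF.level_mono (dvd_mul_left m q) htr
  have hucf : IsCF (Gamma0 (q * m)) 2 u :=
    IsCF.smul _ (IsCF.sub (IsCF.sub (IsCF.smul _ hFw1) hhm) (IsCF.smul _ hr))
  have hfV : f = V q (u + r) := by rw [hf, V_add, ← hFu]
  rw [hfV, heckeU_V hq0 (IsCF.add hucf hr)] at hU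
  rw [hfV, hU]
  rfl

/-- **Vanishing of forms with vanishing traces.** -/
theorem eq_zero_of_traces (hq : q.Prime) (hqm : ¬ q ∣ m) [NeZero m] {f F r : ℍ → ℂ}
    (hF : IsCF (Gamma0 m) 2 F) (hr : IsCF (Gamma0 m) 2 r) (hf : f = F + V q r)
    {w : GL (Fin 2) ℝ} {x y z t : ℤ} (hw : IsAL m q w x y z t)
    (h1 : f + heckeU 2 q (f ∣[(2 : ℤ)] w) = 0) (h2 : f ∣[(2 : ℤ)] w + heckeU 2 q f = 0) :
    f = 0 := by
  have hq0 := hq.ne_zero
  have hqC : (q : ℂ) ≠ 0 := by exact_mod_cast hq0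
  have hq1C : (q : ℂ) + 1 ≠ 0 := by exact_mod_cast (Nat.succ_ne_zero q)
  have hfw : f ∣[(2 : ℤ)] w = (q : ℂ) • V q F + (q : ℂ)⁻¹ • r := by
    rw [hf, SlashAction.add_slash, slash_w_of_level hq0 hw hF, V_slash_w_of_level hq0 hw hr]
  have e1 : ((q : ℂ) + 1) • F + (q : ℂ)⁻¹ • heckeT 2 q r = 0 := by
    rw [hfw, heckeU_add2, heckeU_smul2 hq0, heckeU_smul2 hq0, heckeU_V hq0 hF, hf] at h1
    rw [heckeT_eq_add hq0, smul_add, smul_smul, inv_mul_cancel₀ hqC, one_smul, add_smul, one_smul]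
    rw [← h1]; abel
  have e2 : heckeT 2 q F + ((q : ℂ)⁻¹ * (q + 1)) • r = 0 := by
    rw [hfw, hf, heckeU_add2, heckeU_V hq0 hr] at h2
    rw [heckeT_eq_add hq0, mul_add, inv_mul_cancel₀ hqC, mul_one, add_smul, one_smul]
    rw [← h2]; abel
  have hTadd : ∀ a b : ℍ → ℂ, heckeT 2 q (a + b) = heckeT 2 q a + heckeT 2 q b := by
    intro a b
    rw [heckeT_eq_add hq0, heckeT_eq_add hq0, heckeT_eq_add hq0, V_add, heckeU_add2, smul_add]
    abel
  have hTsmul : ∀ (c : ℂ) (a : ℍ → ℂ), heckeT 2 q (c • a) = c • heckeT 2 q a := by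
    intro c a
    rw [heckeT_eq_add hq0, heckeT_eq_add hq0, V_smul, heckeU_smul2 hq0, smul_add, smul_comm]
  have e3 : heckeT 2 q (heckeT 2 q F) = ((q + 1 : ℂ) * (q + 1)) • F := by
    have h3 : heckeT 2 q F = (-((q : ℂ)⁻¹ * (q + 1))) • r := by
      rw [_root_.neg_smul]; exact eq_neg_of_add_eq_zero_left e2
    have h4 : (q : ℂ)⁻¹ • heckeT 2 q r = (-((q : ℂ) + 1)) • F := by
      rw [_root_.neg_smul]; exact eq_neg_of_add_eq_zero_right e1
    rw [h3, hTsmul]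
    have h5 : (-((q : ℂ)⁻¹ * (q + 1))) • heckeT 2 q r =
        (-((q : ℂ) + 1)) • ((q : ℂ)⁻¹ • heckeT 2 q r) := by
      rw [smul_smul]; congr 1; ring
    rw [h5, h4, smul_smul]
    congr 1; ring
  have hTF : IsCF (Gamma0 m) 2 (heckeT 2 q F) := IsCF.heckeT hF hq hqm
  have hG : heckeT 2 q F + ((q : ℂ) + 1) • F = 0 := by
    refine eq_zero_of_heckeT_eigen hq hqm (IsCF.add hTF (IsCF.smul _ hF)) (ε := 1) (by ring) ?_
    rw [hTadd, hTsmul, e3, one_mul, smul_add, smul_smul, add_comm]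
  have hF0 : F = 0 := by
    refine eq_zero_of_heckeT_eigen hq hqm hF (ε := -1) (by ring) ?_
    rw [eq_neg_of_add_eq_zero_left hG, ← _root_.neg_smul]
    congr 1; ring
  have hr0 : r = 0 := by
    rw [hF0] at e2
    have h3 : heckeT 2 q (0 : ℍ → ℂ) = 0 := by
      have h4 := hTsmul 0 0
      rwa [zero_smul, zero_smul] at h4
    rw [h3, zero_add] at e2
    exact (smul_eq_zero.mp e2).resolve_left (mul_ne_zero (inv_ne_zero hqC) hq1C)
  rw [hf, hF0, hr0, zero_add]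
  rfl

/-- Splitting of an eigenspace at a prime `q` dividing `K / M`. -/
theorem exists_split {M K L : ℕ} [NeZero M] [NeZero K] (hq : q.Prime) (hK : K = q * L)
    {g : CuspForm (Gamma0 M) 2} (hg : g.IsNewform) (hML : M ∣ L) (s : Finset ℕ)
    (f : CuspForm (Gamma0 K) 2)
    (hf : ∀ ℓ : Nat.Primes, (ℓ : ℕ) ∉ s → hOp K ℓ f = qCoeff g ℓ • f) :
    ∃ F r : ℍ → ℂ, IsCF (Gamma0 L) 2 F ∧ IsCF (Gamma0 L) 2 r ∧ (f : ℍ → ℂ) = F + V q r := by
  have hqL : K ≠ 0 := NeZero.ne _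
  have hspan := mem_span_of_eigen hg K s f hf
  generalize (f : ℍ → ℂ) = φ at hspan
  induction hspan using Submodule.span_induction with
  | zero => exact ⟨0, 0, IsCF.zero, IsCF.zero, by rw [zero_add]; rfl⟩
  | add a b _ _ iha ihb =>
    obtain ⟨F, r, hF, hr, h⟩ := iha
    obtain ⟨F', r', hF', hr', h'⟩ := ihb
    refine ⟨F + F', r + r', IsCF.add hF hF', IsCF.add hr hr', ?_⟩
    rw [h, h', V_add]; abel
  | smul c a _ iha =>
    obtain ⟨F, r, hF, hr, h⟩ := iha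
    refine ⟨c • F, c • r, IsCF.smul c hF, IsCF.smul c hr, ?_⟩
    rw [h, V_smul, smul_add]
  | mem a ha =>
    obtain ⟨d, hd, rfl⟩ := ha
    have hd0 : d ≠ 0 := by
      rintro rfl
      rw [mul_zero, zero_dvd_iff] at hd
      exact hqL hd
    rw [hK] at hd
    obtain ⟨k, hk⟩ := hML
    by_cases hqd : q ∣ d
    · obtain ⟨d', rfl⟩ := hqd
      have hd'0 : d' ≠ 0 := right_ne_zero_of_mul hd0
      refine ⟨0, V d' g, IsCF.zero, ?_, ?_⟩
      · refine IsCF.level_mono ?_ (IsCF.V (IsCF.of_cuspForm g) hd'0)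
        rw [show M * (q * d') = q * (M * d') by ring] at hd
        exact (Nat.mul_dvd_mul_iff_left hq.pos).mp hd
      · rw [zero_add, V_V hq.ne_zero hd'0]
    · refine ⟨V d g, 0, ?_, IsCF.zero, ?_⟩
      · refine IsCF.level_mono ?_ (IsCF.V (IsCF.of_cuspForm g) hd0)
        rw [hk] at hd ⊢
        refine mul_dvd_mul_left M ?_
        rw [show q * (M * k) = M * (q * k) by ring] at hd
        have h1 : d ∣ q * k := (Nat.mul_dvd_mul_iff_left (Nat.pos_of_ne_zero (NeZero.ne M))).mp hd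
        exact (Nat.Coprime.symm ((hq.coprime_iff_not_dvd).mpr hqd)).dvd_of_dvd_mul_left h1
      · have : V q (0 : ℍ → ℂ) = 0 := rfl
        rw [this, add_zero]

end Fermat.Agent.TWNew
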