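import Fermat.Agent.Twist.Spec
import Fermat.Agent.TWNew.Hom

set_option autoImplicit false
set_option linter.unusedSectionVars false

/-!
# The image of the last twist: `U_q F = 0` and `w_{q²} F = ± F`
-/

noncomputable section

namespace Fermat.Agent.TWNew

open CongruenceSubgroup Fermat.Agent.Top Fermat.Agent.TWMod Fermat.Agent.Twist
  Matrix.SpecialLinearGroup
open scoped MatrixGroups

/-- Comparison of sums of values of a cocycle. -/
theorem sum_compare {Γ₁ : Type*} [Group Γ₁] {Λ : Type*} [CommRing Λ] {κ : Γ₁ →* Λ} {A : Type*}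
    [AddCommGroup A] [Module Λ A] {I J : Type*} [Fintype I] (σ : Equiv.Perm I) (w : I → Λ)
    (c g : I → Γ₁) (e : I → J) (c'' : J → Γ₁) (f : Z1 κ A)
    (h1 : ∀ i, w i ≠ 0 → c i * g (σ i) = g i * c'' (e i)) (h2 : ∀ i, w i * κ (c i) = w (σ i)) :
    ∑ i, w i • f.1 (c i) = ∑ i, (w i * κ (g i)) • f.1 (c'' (e i)) := by
  have key : ∀ i, w i • f.1 (c i) + w (σ i) • f.1 (g (σ i)) =
      w i • f.1 (g i) + (w i * κ (g i)) • f.1 (c'' (e i)) := by
    intro i
    by_cases hi : w i = 0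
    · rw [← h2 i, hi, zero_mul, zero_mul, zero_smul, zero_smul, zero_smul, zero_smul]
    · have h3 := congrArg (fun y => w i • f.1 y) (h1 i hi)
      simp only [Z1_mul f, smul_add, ← mul_smul, h2] at h3
      exact h3
  have h4 := Finset.sum_congr (rfl : (Finset.univ : Finset I) = Finset.univ) fun i _ => key i
  rw [Finset.sum_add_distrib, Finset.sum_add_distrib,
    Equiv.sum_comp σ (fun i => w i • f.1 (g i)), add_comm] at h4
  exact add_left_cancel h4

section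

variable {q : ℕ} [hq : Fact q.Prime]

theorem TM_cancel {g g' : SL(2, ℤ)} {v v' : ZMod q}
    (h : (g : Matrix (Fin 2) (Fin 2) ℤ) * TM q (v.val : ℤ) =
      (g' : Matrix (Fin 2) (Fin 2) ℤ) * TM q (v'.val : ℤ)) : v = v' ∧ g = g' := by
  have hq0 : (0 : ℤ) < q := by exact_mod_cast hq.out.pos
  have h1 : ((g'⁻¹ * g : SL(2, ℤ)) : Matrix (Fin 2) (Fin 2) ℤ) * TM q (v.val : ℤ) =
      TM q (v'.val : ℤ) := by
    rw [Matrix.SpecialLinearGroup.coe_mul, Matrix.mul_assoc, h, ← Matrix.mul_assoc,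
      ← Matrix.SpecialLinearGroup.coe_mul, inv_mul_cancel, Matrix.SpecialLinearGroup.coe_one,
      Matrix.one_mul]
  rw [TM, TM] at h1
  obtain ⟨-, -, t, ht⟩ := upper_unique (g'⁻¹ * g) hq0 hq0 h1
  have h2 := congrArg (Int.cast : ℤ → ZMod q) ht
  push_cast at h2
  rw [ZMod.natCast_zmod_val, ZMod.natCast_zmod_val, CharP.cast_eq_zero (ZMod q) q, mul_zero,
    add_zero] at h2
  subst h2
  refine ⟨rfl, ?_⟩
  apply Subtype.ext
  refine Ihara.mul_right_cancel_det ?_ h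
  rw [det_TM]
  positivity

theorem HM_cancel {ℓ : ℕ} (hℓ : ℓ.Prime) {g g' : SL(2, ℤ)} {i j : Option (Fin ℓ)}
    (h : (g : Matrix (Fin 2) (Fin 2) ℤ) * HM ℓ i = (g' : Matrix (Fin 2) (Fin 2) ℤ) * HM ℓ j) :
    i = j ∧ g = g' := by
  have h1 : ((g'⁻¹ * g : SL(2, ℤ)) : Matrix (Fin 2) (Fin 2) ℤ) * HM ℓ i = HM ℓ j := by
    rw [Matrix.SpecialLinearGroup.coe_mul, Matrix.mul_assoc, h, ← Matrix.mul_assoc,
      ← Matrix.SpecialLinearGroup.coe_mul, inv_mul_cancel, Matrix.SpecialLinearGroup.coe_one,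
      Matrix.one_mul]
  have h2 := HM_unique hℓ _ _ _ h1
  subst h2
  refine ⟨rfl, ?_⟩
  apply Subtype.ext
  refine Ihara.mul_right_cancel_det ?_ h
  rw [det_HM]
  exact_mod_cast hℓ.ne_zero

/-- The relation defining the factors of the Hecke operator, with integral matrices. -/
theorem hreps_spec {N ℓ : ℕ} (hℓ : ℓ.Prime) (γ : Gamma0 N) (i : HI N ℓ) :
    HM ℓ i.1 * ((γ : SL(2, ℤ)) : Matrix (Fin 2) (Fin 2) ℤ) =
      (((hreps N hℓ).c γ i : SL(2, ℤ)) : Matrix (Fin 2) (Fin 2) ℤ) *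
        HM ℓ ((hreps N hℓ).σ γ i).1 :=
  int_of_GL (HR_apply hℓ.ne_zero _) (mapGL_coe _) (mapGL_coe _) (HR_apply hℓ.ne_zero _)
    ((hreps N hℓ).mul_eq γ i)

variable {N n : ℕ} (hqN : q ∣ N) {χ : DirichletCharacter ℂ N} {χ' : DirichletCharacter ℂ (N * q)}
  {ψ : DirichletCharacter ℂ q} (h : TwRel N q χ χ' ψ)

/-- inclusion of `Γ₀(N q)` in `Γ₀(N)` -/
def inc (N q : ℕ) (γ : Gamma0 (N * q)) : Gamma0 N :=
  ⟨γ, Gamma0_mem.mpr ((ZMod.intCast_zmod_eq_zero_iff_dvd _ _).mpr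
    (dvd_trans (by push_cast; exact dvd_mul_right _ _) (isDelta_of_mem γ).1))⟩

/-- division with remainder in the exchange of the twist and of `U_q` -/
def sIdx (x : ZMod q × Fin q) : Fin q :=
  ⟨((x.1.val : ℕ) + x.2) % q, Nat.mod_lt _ hq.out.pos⟩

def kIdx (x : ZMod q × Fin q) : ℤ := (((x.1.val : ℕ) + x.2) / q : ℕ)

theorem TM_mul_HM (u : ZMod q) (j : Fin q) :
    TM q (u.val : ℤ) * HM q (some j) = (q : ℤ) • ((!![1, kIdx (u, j); 0, 1] :
      Matrix (Fin 2) (Fin 2) ℤ) * HM q (some (sIdx (u, j)))) := by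
  rw [TM_mul_HM_some, HM_some, shift_mul]
  have h1 : ((((u.val : ℕ) + (j : ℕ)) % q : ℕ) : ℤ) + (((u.val : ℕ) + (j : ℕ)) / q : ℕ) * (q : ℤ) =
      (u.val : ℤ) + ((j : ℕ) : ℤ) := by
    have h2 := congrArg (Nat.cast : ℕ → ℤ) (Nat.mod_add_div (u.val + (j : ℕ)) q)
    rw [Nat.cast_add, Nat.cast_mul, Nat.cast_add] at h2
    linear_combination h2
  ext a b
  fin_cases a <;> fin_cases b
  · simp
  · simp only [sIdx, kIdx]
    simp only [Matrix.smul_apply, Matrix.of_apply, Matrix.cons_val', Matrix.cons_val_zero,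
      Matrix.cons_val_one, Matrix.cons_val_fin_one, Fin.zero_eta, Fin.mk_one, smul_eq_mul]
    linear_combination (-(q : ℤ)) * h1
  · simp
  · simp

/-- the index set of `U_q` -/
def iOf (N q : ℕ) (j : Fin q) : HI (N * q) q := ⟨some j, fun _ => by simp⟩

theorem exists_jOf (i : HI (N * q) q) : ∃ j : Fin q, i.1 = some j := by
  obtain ⟨i, hi⟩ := i
  cases i with
  | none => exact absurd rfl (hi (dvd_mul_left q N))
  | some j => exact ⟨j, rfl⟩

/-- the index of an element -/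
def jOf (i : HI (N * q) q) : Fin q := (exists_jOf i).choose

theorem jOf_spec (i : HI (N * q) q) : i.1 = some (jOf i) := (exists_jOf i).choose_spec

theorem iOf_jOf (i : HI (N * q) q) : iOf N q (jOf i) = i := Subtype.ext (jOf_spec i).symm

theorem jOf_iOf (j : Fin q) : jOf (iOf N q j) = j :=
  Option.some_injective _ (jOf_spec (iOf N q j)).symm

theorem sIdx_injective (u : ZMod q) : Function.Injective fun j : Fin q => sIdx (u, j) := by
  intro i j hij
  have h1 := congrArg (fun x : Fin q => (x : ℕ)) hij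
  change (u.val + (i : ℕ)) % q = (u.val + (j : ℕ)) % q at h1
  have h2 : (u.val + (i : ℕ)) ≡ (u.val + (j : ℕ)) [MOD q] := h1
  exact Fin.ext (Nat.ModEq.eq_of_lt_of_lt (Nat.ModEq.add_left_cancel' _ h2) i.2 j.2)

theorem bij_e (u : ZMod q) :
    Function.Bijective fun i : HI (N * q) q => iOf N q (sIdx (u, jOf i)) := by
  refine Finite.injective_iff_bijective.mp ?_
  intro i i' hii
  have h1 := congrArg jOf hii
  simp only [jOf_iOf] at h1
  have h2 := sIdx_injective u h1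
  rw [← iOf_jOf i, h2, iOf_jOf]

include h in
theorem psi_mul_kap (h1 : ∀ γ, kap χ' γ = 1) (γ : Gamma0 (N * q)) (u : ZMod q) :
    ψ u * kap χ (twc hqN γ u) = ψ (twσ q γ u) := by
  have := isWB_tw hqN h γ u
  rw [h1, one_mul] at this
  exact this

/-- **`U_q` kills the image of the twist at `q`.** -/
theorem sum_twZ_eq_zero (h1 : ∀ γ, kap χ' γ = 1) (hψ : ψ ≠ 1) (f : Z1 (kap χ) ℂ)
    (γ : Gamma0 (N * q)) :
    ∑ i : HI (N * q) q, (twZ ℂ hqN h f).1 ((hreps (N * q) hq.out).c γ i) = 0 := by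
  set R1 := hreps (N * q) hq.out with hR1
  have key := sum_compare (κ := kap χ) (A := ℂ)
    (((twBR hqN).comp (BR.ofReps R1)).perm γ) (fun x => ψ x.1)
    (fun x => twc hqN (R1.c γ x.2) x.1) (fun x => shiftG N (kIdx (x.1, jOf x.2)))
    (fun x => iOf N q (sIdx (x.1, jOf x.2))) (fun i => inc N q (R1.c γ i)) f
    (by
      rintro ⟨u, i⟩ -
      change twc hqN (R1.c γ i) u * shiftG N (kIdx (twσ q (R1.c γ i) u, jOf (R1.σ γ i))) =
        shiftG N (kIdx (u, jOf i)) * inc N q (R1.c γ (iOf N q (sIdx (u, jOf i))))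
      set u' := twσ q (R1.c γ i) u with hu'
      set i' := R1.σ γ i with hi'
      set s := iOf N q (sIdx (u, jOf i)) with hs
      have hq0 : (q : ℤ) ≠ 0 := by exact_mod_cast hq.out.ne_zero
      have e1 : TM q (u.val : ℤ) * HM q (some (jOf i)) *
          ((γ : SL(2, ℤ)) : Matrix (Fin 2) (Fin 2) ℤ) =
          (q : ℤ) • ((((twc hqN (R1.c γ i) u * shiftG N (kIdx (u', jOf i')) : Gamma0 N) :
            SL(2, ℤ)) : Matrix (Fin 2) (Fin 2) ℤ) * HM q (some (sIdx (u', jOf i')))) := by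
        have h3 := hreps_spec hq.out γ i
        rw [jOf_spec i, ← hR1, ← hi', jOf_spec i'] at h3
        rw [Matrix.mul_assoc, h3, ← Matrix.mul_assoc, twc_spec hqN (R1.c γ i) u, ← hu',
          Matrix.mul_assoc, TM_mul_HM, Matrix.mul_smul, ← Matrix.mul_assoc, Subgroup.coe_mul,
          Matrix.SpecialLinearGroup.coe_mul, coe_shiftG]
      have e2 : TM q (u.val : ℤ) * HM q (some (jOf i)) *
          ((γ : SL(2, ℤ)) : Matrix (Fin 2) (Fin 2) ℤ) =
          (q : ℤ) • ((((shiftG N (kIdx (u, jOf i)) * inc N q (R1.c γ s) : Gamma0 N) :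
            SL(2, ℤ)) : Matrix (Fin 2) (Fin 2) ℤ) * HM q (R1.σ γ s).1) := by
        have h3 := hreps_spec hq.out γ s
        rw [← hR1] at h3
        rw [TM_mul_HM, Matrix.smul_mul, Matrix.mul_assoc]
        have h4 : HM q (some (sIdx (u, jOf i))) = HM q s.1 := rfl
        rw [h4, h3, ← Matrix.mul_assoc, Subgroup.coe_mul, Matrix.SpecialLinearGroup.coe_mul,
          coe_shiftG]
        rfl
      rw [e1] at e2
      exact Subtype.ext (HM_cancel hq.out (smul_right_injective _ hq0 e2)).2)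
    (by
      rintro ⟨u, i⟩
      exact psi_mul_kap hqN h h1 (R1.c γ i) u)
  have e3 : ∑ i : HI (N * q) q, (twZ ℂ hqN h f).1 (R1.c γ i) =
      ∑ x : ZMod q × HI (N * q) q, ψ x.1 • f.1 (twc hqN (R1.c γ x.2) x.1) := by
    rw [Fintype.sum_prod_type_right]
    exact Finset.sum_congr rfl fun i _ => twZ_apply ℂ hqN h f _
  rw [e3, key, Fintype.sum_prod_type]
  have e4 : ∀ u : ZMod q, ∑ i : HI (N * q) q,
      (ψ u * kap χ (shiftG N (kIdx (u, jOf i)))) •
        f.1 (inc N q (R1.c γ (iOf N q (sIdx (u, jOf i))))) =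
      ψ u • ∑ i : HI (N * q) q, f.1 (inc N q (R1.c γ i)) := by
    intro u
    rw [Finset.smul_sum, ← (bij_e (N := N) u).sum_comp (fun i => ψ u • f.1 (inc N q (R1.c γ i)))]
    refine Finset.sum_congr rfl fun i _ => ?_
    rw [kap_shiftG, mul_one]
  rw [Finset.sum_congr rfl fun u _ => e4 u, ← Finset.sum_smul, MulChar.sum_eq_zero_of_ne_one hψ,
    zero_smul]

/-! ### The Atkin–Lehner involution -/

/-- The Atkin–Lehner matrix for `q²`. -/
def wm (q n : ℕ) (x y z t : ℤ) : Matrix (Fin 2) (Fin 2) ℤ :=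
  !![(q : ℤ) ^ 2 * x, y; (q : ℤ) ^ 2 * n * z, (q : ℤ) ^ 2 * t]

theorem exists_gw (hN : N = q * n) {x y z t : ℤ} (hd : (q : ℤ) ^ 2 * x * t - n * y * z = 1)
    (u v : ℤ) (hdiv : (q : ℤ) ∣ y - u * v * (n * z)) : ∃ g : Gamma0 N,
    TM q u * wm q n x y z t = (q : ℤ) • (((g : SL(2, ℤ)) : Matrix (Fin 2) (Fin 2) ℤ) * TM q v) ∧
      ((g : SL(2, ℤ)) : Matrix (Fin 2) (Fin 2) ℤ) 1 1 = q * t - v * (n * z) := by
  obtain ⟨e, he⟩ := hdiv
  let A : Matrix (Fin 2) (Fin 2) ℤ := !![q * x + u * (n * z), e + u * t - v * x;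
    q * n * z, q * t - v * (n * z)]
  have hA : A.det = 1 := by
    rw [Matrix.det_fin_two_of]
    linear_combination hd + ((n : ℤ) * z) * he
  refine ⟨⟨⟨A, hA⟩, Gamma0_mem.mpr ((ZMod.intCast_zmod_eq_zero_iff_dvd _ _).mpr ?_)⟩, ?_, rfl⟩
  · change (N : ℤ) ∣ q * n * z
    exact ⟨z, by rw [hN]; push_cast; ring⟩
  · change TM q u * wm q n x y z t = (q : ℤ) • (A * TM q v)
    ext a b
    fin_cases a <;> fin_cases b
    · simp [A, TM, wm, Matrix.mul_apply, Fin.sum_univ_two]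
      ring
    · simp [A, TM, wm, Matrix.mul_apply, Fin.sum_univ_two]
      linear_combination (q : ℤ) * he
    · simp [A, TM, wm, Matrix.mul_apply, Fin.sum_univ_two]
      left; ring
    · simp [A, TM, wm, Matrix.mul_apply, Fin.sum_univ_two]
      left; ring

/-- the involution of `ZMod q` attached to the Atkin–Lehner matrix -/
def vy (y : ℤ) (u : ZMod q) : ZMod q := -(y : ZMod q) ^ 2 * u⁻¹

theorem vy_vy {y : ℤ} (hy : (y : ZMod q) ≠ 0) (u : ZMod q) : vy y (vy y u) = u := by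
  by_cases hu : u = 0
  · rw [hu, vy, vy]; simp
  · rw [vy, vy]
    field_simp

/-- the permutation -/
def vyE {y : ℤ} (hy : (y : ZMod q) ≠ 0) : Equiv.Perm (ZMod q) :=
  ⟨vy y, vy y, vy_vy hy, vy_vy hy⟩

theorem ynz_eq {x y z t : ℤ} (hd : (q : ℤ) ^ 2 * x * t - n * y * z = 1) :
    (y : ZMod q) * (n * z) = -1 := by
  have := congrArg (Int.cast : ℤ → ZMod q) hd
  push_cast at this
  rw [CharP.cast_eq_zero (ZMod q) q] at this
  linear_combination -this

theorem dvd_vy {x y z t : ℤ} (hd : (q : ℤ) ^ 2 * x * t - n * y * z = 1) {u : ZMod q} (hu : u ≠ 0) :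
    (q : ℤ) ∣ y - (u.val : ℤ) * ((vy y u).val : ℤ) * (n * z) := by
  rw [← ZMod.intCast_zmod_eq_zero_iff_dvd]
  push_cast
  rw [ZMod.natCast_zmod_val, ZMod.natCast_zmod_val, vy]
  have h1 := ynz_eq hd
  have h2 : u * u⁻¹ = 1 := mul_inv_cancel₀ hu
  linear_combination ((y : ZMod q) ^ 2 * (n * z)) * h2 + (y : ZMod q) * h1

open Classical in
/-- the factors of the exchange with the Atkin–Lehner matrix -/
def gw (hN : N = q * n) {x y z t : ℤ} (hd : (q : ℤ) ^ 2 * x * t - n * y * z = 1) (u : ZMod q) :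
    Gamma0 N :=
  if hu : u ≠ 0 then (exists_gw hN hd _ _ (dvd_vy hd hu)).choose else 1

theorem gw_spec (hN : N = q * n) {x y z t : ℤ} (hd : (q : ℤ) ^ 2 * x * t - n * y * z = 1)
    {u : ZMod q} (hu : u ≠ 0) :
    TM q (u.val : ℤ) * wm q n x y z t = (q : ℤ) •
      (((gw hN hd u : SL(2, ℤ)) : Matrix (Fin 2) (Fin 2) ℤ) * TM q ((vy y u).val : ℤ)) ∧
      ((gw hN hd u : SL(2, ℤ)) : Matrix (Fin 2) (Fin 2) ℤ) 1 1 =
        q * t - (vy y u).val * (n * z) := by
  rw [gw, dif_pos hu]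
  exact (exists_gw hN hd _ _ (dvd_vy hd hu)).choose_spec

include h in
theorem psi_kap_gw (hχ' : χ' = 1) (hN : N = q * n) {x y z t : ℤ}
    (hd : (q : ℤ) ^ 2 * x * t - n * y * z = 1) (u : ZMod q) :
    ψ u * kap χ (gw hN hd u) = ψ (-1) * ψ (vy y u) := by
  have hy : (y : ZMod q) ≠ 0 := by
    intro h0
    have := ynz_eq hd
    rw [h0, zero_mul] at this
    exact one_ne_zero (neg_eq_zero.mp this.symm)
  by_cases hu : u = 0
  · rw [hu, vy, inv_zero, mul_zero, MulChar.map_zero]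
    simp
  · have h1 := (gw_spec hN hd hu).2
    have h2 : IsCoprime (((gw hN hd u : SL(2, ℤ)) : Matrix (Fin 2) (Fin 2) ℤ) 1 1) (N : ℤ) :=
      isCoprime_d _
    have h3 : IsCoprime (((gw hN hd u : SL(2, ℤ)) : Matrix (Fin 2) (Fin 2) ℤ) 1 1)
        ((N * q : ℕ) : ℤ) := by
      push_cast
      refine h2.mul_right (h2.of_isCoprime_of_dvd_right ⟨n, by rw [hN]; push_cast; ring⟩)
    have h4 : χ' ((((gw hN hd u : SL(2, ℤ)) : Matrix (Fin 2) (Fin 2) ℤ) 1 1 : ℤ) :
        ZMod (N * q)) = 1 := by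
      rw [hχ']
      exact MulChar.one_apply ((ZMod.coe_int_isUnit_iff_isCoprime _ _).mpr h3.symm)
    rw [kap_eq_sq, h _ h2, h4, one_mul, h1]
    push_cast
    rw [ZMod.natCast_zmod_val, CharP.cast_eq_zero (ZMod q) q, ← map_pow, ← map_mul, ← map_mul]
    congr 1
    have h5 := ynz_eq hd
    have h6 : u * u⁻¹ = 1 := mul_inv_cancel₀ hu
    rw [vy]
    linear_combination ((y : ZMod q) ^ 2 * u⁻¹) * h6 +
      (u * (y : ZMod q) ^ 2 * u⁻¹ ^ 2 * ((y : ZMod q) * (n * z) - 1)) * h5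

/-- **The Atkin–Lehner involution `w_{q²}` acts by `ψ(-1)` on the image of the twist.** -/
theorem twZ_wm (hχ' : χ' = 1) (hN : N = q * n) {x y z t : ℤ}
    (hd : (q : ℤ) ^ 2 * x * t - n * y * z = 1) (f : Z1 (kap χ) ℂ) {γ γ' : Gamma0 (N * q)}
    (hw : wm q n x y z t * ((γ : SL(2, ℤ)) : Matrix (Fin 2) (Fin 2) ℤ) =
      ((γ' : SL(2, ℤ)) : Matrix (Fin 2) (Fin 2) ℤ) * wm q n x y z t) :
    (twZ ℂ hqN h f).1 γ' = ψ (-1) * (twZ ℂ hqN h f).1 γ := by
  have hq0 : (q : ℤ) ≠ 0 := by exact_mod_cast hq.out.ne_zero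
  have hy : (y : ZMod q) ≠ 0 := by
    intro h0
    have := ynz_eq hd
    rw [h0, zero_mul] at this
    exact one_ne_zero (neg_eq_zero.mp this.symm)
  have h1 : ∀ γ, kap χ' γ = 1 := kap_eq_one_of_one hχ'
  have key := sum_compare (κ := kap χ) (A := ℂ) ((twBR hqN).perm γ') (fun u => ψ u)
    (fun u => twc hqN γ' u) (fun u => gw hN hd u) (vy y) (fun v => twc hqN γ v) f
    (by
      intro u hψu
      change twc hqN γ' u * gw hN hd (twσ q γ' u) = gw hN hd u * twc hqN γ (vy y u)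
      have hu : u ≠ 0 := by
        rintro rfl
        exact hψu (MulChar.map_zero ψ)
      have hu' : twσ q γ' u ≠ 0 := by
        intro h0
        have h2 := psi_mul_kap hqN h h1 γ' u
        rw [h0, MulChar.map_zero] at h2
        rcases mul_eq_zero.mp h2 with h3 | h3
        · exact hψu h3
        · have h4 := (kap χ).map_mul (twc hqN γ' u) (twc hqN γ' u)⁻¹
          rw [mul_inv_cancel, map_one, h3, zero_mul] at h4
          exact one_ne_zero h4
      have e1 : TM q (u.val : ℤ) * wm q n x y z t *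
          ((γ : SL(2, ℤ)) : Matrix (Fin 2) (Fin 2) ℤ) =
          (q : ℤ) • ((((twc hqN γ' u * gw hN hd (twσ q γ' u) : Gamma0 N) : SL(2, ℤ)) :
            Matrix (Fin 2) (Fin 2) ℤ) * TM q ((vy y (twσ q γ' u)).val : ℤ)) := by
        rw [Matrix.mul_assoc, hw, ← Matrix.mul_assoc, twc_spec hqN γ' u, Matrix.mul_assoc,
          (gw_spec hN hd hu').1, Matrix.mul_smul, ← Matrix.mul_assoc, Subgroup.coe_mul,
          Matrix.SpecialLinearGroup.coe_mul]
      have e2 : TM q (u.val : ℤ) * wm q n x y z t *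
          ((γ : SL(2, ℤ)) : Matrix (Fin 2) (Fin 2) ℤ) =
          (q : ℤ) • ((((gw hN hd u * twc hqN γ (vy y u) : Gamma0 N) : SL(2, ℤ)) :
            Matrix (Fin 2) (Fin 2) ℤ) * TM q ((twσ q γ (vy y u)).val : ℤ)) := by
        rw [(gw_spec hN hd hu).1, Matrix.smul_mul, Matrix.mul_assoc, twc_spec hqN γ (vy y u),
          ← Matrix.mul_assoc, Subgroup.coe_mul, Matrix.SpecialLinearGroup.coe_mul]
      rw [e1] at e2
      exact Subtype.ext (TM_cancel (smul_right_injective _ hq0 e2)).2)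
    (fun u => psi_mul_kap hqN h h1 γ' u)
  rw [twZ_apply, twZ_apply, key, ← Equiv.sum_comp (vyE hy) (fun u => ψ u • f.1 (twc hqN γ u)),
    Finset.mul_sum]
  refine Finset.sum_congr rfl fun u _ => ?_
  rw [psi_kap_gw h hχ' hN hd u, smul_eq_mul, smul_eq_mul, mul_assoc]
  rfl

end

end Fermat.Agent.TWNew
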